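/-
P-MW row 791 (MW-GT-ID-ASM, owner helper19; parent row 679 MW-GT, owner helper68).

`gtIdentity : GTClearStatement → QbarValRingStatement → ChevalleyAlgStatement →
  GTIdentityStatement` — the valuative criterion.

Proof.  Put `S' = 𝓢[1/b]`, `β i = a i / b`, `B' = ℚ[β i : i] ⊆ S'` and let `bb` be the ideal of
`B'` generated by the `β i`.  If `bb ≠ ⊤`, choose a maximal ideal `qq ⊇ bb`, a minimal prime
`p0 ≤ qq` of `B'`, a prime `P` of `S'` lying over `p0` (possible since `B' → S'` is injective),
and the point `φ : S' → KK = AlgebraicClosure (Frac (S' / P))`.  Chevalley gives a valuation ring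
`V` of `KK` containing the image of `B'` in which the image of `qq` consists of nonunits and whose
residue classes are algebraic; it is a test object.  At the point `y = φ ∘ (𝓢 → S')` we get
`v (y (a i)) = v (y b) * v (β i) < v (y b)` for all `i`, contradicting `ValDominates`.
Hence `1 ∈ bb`, i.e. `1 = ∑ c i * β i` with `c i ∈ B'`, and GT-CLEAR applies.
-/
import Fermat.Agent.H68.MW.GTInterfaces

set_option autoImplicit false

noncomputable section

namespace Fermat.Agent.H19.MW

open Fermat.Agent.H92.MW Fermat.Agent.H68.GT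

/-- Every prime ideal of a `ℚ`-algebra is the kernel of a point with values in an algebraically
closed field (packaged existentially, so that no instance diamonds can arise downstream). -/
theorem gt_exists_point (S' : Type) [CommRing S'] [Algebra ℚ S'] (P : Ideal S') [P.IsPrime] :
    ∃ (KK : Type) (_ : Field KK) (_ : Algebra ℚ KK) (_ : IsAlgClosed KK) (φ : S' →ₐ[ℚ] KK),
      RingHom.ker (φ : S' →+* KK) = P := by
  let F := FractionRing (S' ⧸ P)
  let KK := AlgebraicClosure F
  let φ0 : S' →+* KK :=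
    (algebraMap F KK).comp ((algebraMap (S' ⧸ P) F).comp (Ideal.Quotient.mk P))
  let alg : Algebra ℚ KK := (φ0.comp (algebraMap ℚ S')).toAlgebra
  refine ⟨KK, inferInstance, alg, inferInstance, ⟨φ0, fun r => rfl⟩, ?_⟩
  ext x
  have h1 : Function.Injective (algebraMap F KK) := (algebraMap F KK).injective
  have h2 : Function.Injective (algebraMap (S' ⧸ P) F) := IsFractionRing.injective _ _
  constructor
  · intro hx
    have hx' : algebraMap F KK (algebraMap (S' ⧸ P) F (Ideal.Quotient.mk P x)) = 0 := hx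
    have h3 : algebraMap (S' ⧸ P) F (Ideal.Quotient.mk P x) = 0 :=
      h1 (hx'.trans (map_zero _).symm)
    have h4 : Ideal.Quotient.mk P x = 0 := h2 (h3.trans (map_zero _).symm)
    exact Ideal.Quotient.eq_zero_iff_mem.mp h4
  · intro hx
    have h4 : Ideal.Quotient.mk P x = 0 := Ideal.Quotient.eq_zero_iff_mem.mpr hx
    show algebraMap F KK (algebraMap (S' ⧸ P) F (Ideal.Quotient.mk P x)) = 0
    rw [h4, map_zero, map_zero]

/-- `x = b * (x / b)` in `𝓢[1/b]`. -/
theorem gt_frac_mul {𝓢 : Type} [CommRing 𝓢] (b x : 𝓢) :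
    algebraMap 𝓢 (Localization.Away b) x = algebraMap 𝓢 (Localization.Away b) b * frac b x := by
  unfold frac
  rw [Localization.mk_eq_mk', mul_comm]
  exact (IsLocalization.mk'_spec (Localization.Away b) x
    (⟨b, Submonoid.mem_powers b⟩ : Submonoid.powers b)).symm

/-- `b` is a unit of `𝓢[1/b]`. -/
theorem gt_isUnit_b {𝓢 : Type} [CommRing 𝓢] (b : 𝓢) :
    IsUnit (algebraMap 𝓢 (Localization.Away b) b) :=
  IsLocalization.map_units (Localization.Away b)
    (⟨b, Submonoid.mem_powers b⟩ : Submonoid.powers b)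

/-- The ideal of `ℚ[a i / b]` generated by the `a i / b` is the unit ideal. -/
theorem gt_span_eq_top (hQ : QbarValRingStatement) (hV : ChevalleyAlgStatement)
    (𝓢 : Type) [CommRing 𝓢] [Algebra ℚ 𝓢] (ιA : Type) [Fintype ιA] (a : ιA → 𝓢) (b : 𝓢)
    (hdom : ValDominates 𝓢 a b) :
    Ideal.span (Set.range fun i : ιA =>
      (⟨frac b (a i), Algebra.subset_adjoin ⟨i, rfl⟩⟩ :
        Algebra.adjoin ℚ (Set.range fun i : ιA => frac b (a i)))) = ⊤ := by
  classical
  by_contra hne
  obtain ⟨qq, hqmax, hbq⟩ := Ideal.exists_le_maximal _ hne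
  have hqprime : qq.IsPrime := hqmax.isPrime
  obtain ⟨p0, hp0min, hp0le⟩ :=
    Ideal.exists_minimalPrimes_le (I := (⊥ : Ideal _)) (J := qq) bot_le
  obtain ⟨P, hPprime, hPcomap⟩ :=
    Ideal.exists_comap_eq_of_mem_minimalPrimes_of_injective
      (f := (Algebra.adjoin ℚ (Set.range fun i : ιA => frac b (a i))).val.toRingHom)
      Subtype.val_injective p0 hp0min
  have := hPprime
  obtain ⟨KK, instF, instA, instC, φ, hφ⟩ := gt_exists_point (Localization.Away b) P
  have : Algebra.FiniteType ℚ (Algebra.adjoin ℚ (Set.range fun i : ιA => frac b (a i))) :=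
    Algebra.FiniteType.adjoin_of_finite (Set.finite_range _)
  -- the restriction of the point to `B'`
  have hker : RingHom.ker
      (φ.comp (Algebra.adjoin ℚ (Set.range fun i : ιA => frac b (a i))).val) ≤ qq := by
    intro x hx
    apply hp0le
    rw [← hPcomap, Ideal.mem_comap, ← hφ]
    exact hx
  obtain ⟨V, hV1, hV2, hV3⟩ := hV KK _ (φ.comp (Algebra.adjoin ℚ
    (Set.range fun i : ιA => frac b (a i))).val) qq hqmax hker
  have hVq : IsQbarValRing V := by
    refine hQ KK V (fun q => ?_) hV3
    have := hV1 (algebraMap ℚ _ q)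
    rwa [AlgHom.commutes] at this
  obtain ⟨i, hi⟩ := hdom KK V hVq (φ.comp (IsScalarTower.toAlgHom ℚ 𝓢 (Localization.Away b)))
  -- the value at `β i` is `< 1`
  have hlt : V.valuation (φ (frac b (a i))) < 1 := by
    have hmem := hV2 ⟨frac b (a i), Algebra.subset_adjoin ⟨i, rfl⟩⟩
      (hbq (Ideal.subset_span ⟨i, rfl⟩))
    exact (V.mem_nonunits_iff).mp hmem
  have hb0 : φ (algebraMap 𝓢 (Localization.Away b) b) ≠ 0 :=
    ((gt_isUnit_b b).map φ).ne_zero
  have hvb : V.valuation (φ (algebraMap 𝓢 (Localization.Away b) b)) ≠ 0 :=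
    (Valuation.ne_zero_iff _).mpr hb0
  have hi' : V.valuation (φ (algebraMap 𝓢 (Localization.Away b) b)) ≤
      V.valuation (φ (algebraMap 𝓢 (Localization.Away b) (a i))) := hi
  rw [gt_frac_mul b (a i), map_mul, map_mul] at hi'
  have hlt' : V.valuation (φ (algebraMap 𝓢 (Localization.Away b) b)) *
      V.valuation (φ (frac b (a i))) <
      V.valuation (φ (algebraMap 𝓢 (Localization.Away b) b)) * 1 :=
    mul_lt_mul_of_pos_left hlt (zero_lt_iff.mpr hvb)
  rw [mul_one] at hlt'
  exact absurd hi' (not_le.mpr hlt')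

/-- **GT-ID-ASM** (row 791): the valuative criterion, assembled from GT-CLEAR, GT-QVR and
GT-CHEV. -/
theorem gtIdentity (hC : GTClearStatement) (hQ : QbarValRingStatement)
    (hV : ChevalleyAlgStatement) : GTIdentityStatement := by
  intro 𝓢 _ _ ιA _ a b hdom
  classical
  have htop := gt_span_eq_top hQ hV 𝓢 ιA a b hdom
  have h1 : (1 : Algebra.adjoin ℚ (Set.range fun i : ιA => frac b (a i))) ∈
      Ideal.span (Set.range fun i : ιA =>
        (⟨frac b (a i), Algebra.subset_adjoin ⟨i, rfl⟩⟩ :
          Algebra.adjoin ℚ (Set.range fun i : ιA => frac b (a i)))) := by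
    rw [htop]; exact Submodule.mem_top
  obtain ⟨c, hc⟩ := (Ideal.mem_span_range_iff_exists_fun).mp h1
  refine hC 𝓢 ιA a b (fun i => (c i : Localization.Away b)) (fun i => (c i).2) ?_
  have := congrArg (Subtype.val) hc
  simpa using this

end Fermat.Agent.H19.MW

end
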